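import Mathlib
import Fermat.Agent.E.Desc.Dev.Iface
import Fermat.Agent.MU.E.Desc.PCSMain

section MergeWrap_E_Desc_Dev_Basic -- from E/Desc/Dev/Basic.lean

/-!
# E' / Desc / Dev / Basic : subgroups of prime index (seat DESC-DEV, helper90)

`F ≤ F'` subgroups of an abelian group `W` with `F.relIndex F' = l` prime.

* `pi_nsmul_mem` : `l • w ∈ F` for `w ∈ F'`;
* `pi_exists_coord` : for `w ∈ F' ∖ F` every `x ∈ F'` is `≡ k • w` modulo `F`, `k < l`;
* `pi_zsmul_mem_iff`, `pi_nsmul_mem_iff` : `k • w ∈ F ↔ l ∣ k`;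
* `pi_card_inf` : `#(F' ⊓ K) = l * #(F ⊓ K)` if `F' ⊓ K ⊄ F`;
* `pi_card` : `#F' = l * #F`;
* `pi_exists_not_mem` : `F' ⊄ F`.
-/

set_option autoImplicit false
set_option linter.unusedSectionVars false
set_option linter.style.haveILetI false

namespace Fermat.Agent.EDesc

variable {W : Type*} [AddCommGroup W] {F F' : AddSubgroup W} {l : ℕ}

/-- `l • w ∈ F` for `w ∈ F'`. -/
theorem pi_nsmul_mem (hidx : F.relIndex F' = l) {w : W} (hw : w ∈ F') : l • w ∈ F := by
  have h1 : (Nat.card (↥F' ⧸ F.addSubgroupOf F')) • (QuotientAddGroup.mk (⟨w, hw⟩ : ↥F') :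
      ↥F' ⧸ F.addSubgroupOf F') = 0 := card_nsmul_eq_zero'
  have h2 : Nat.card (↥F' ⧸ F.addSubgroupOf F') = l := hidx
  rw [h2, ← QuotientAddGroup.mk_nsmul, QuotientAddGroup.eq_zero_iff] at h1
  exact h1

/-- `k • w ∈ F ↔ l ∣ k` for `w ∈ F' ∖ F`. -/
theorem pi_zsmul_mem_iff (hl : l.Prime) (hidx : F.relIndex F' = l) {w : W} (hw : w ∈ F')
    (hwF : w ∉ F) (z : ℤ) : z • w ∈ F ↔ (l : ℤ) ∣ z := by
  constructor
  · intro hz
    by_contra hndvd
    have hcop : IsCoprime z (l : ℤ) := by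
      rw [isCoprime_comm]
      exact (Nat.prime_iff_prime_int.1 hl).coprime_iff_not_dvd.2 hndvd
    obtain ⟨a, b, hab⟩ := hcop
    apply hwF
    have h1 : w = a • (z • w) + b • ((l : ℤ) • w) := by
      rw [← mul_smul, ← mul_smul, ← add_smul, hab, one_smul]
    rw [h1]
    refine F.add_mem (F.zsmul_mem hz a) (F.zsmul_mem ?_ b)
    rw [natCast_zsmul]
    exact pi_nsmul_mem hidx hw
  · rintro ⟨t, rfl⟩
    rw [mul_comm, mul_smul, natCast_zsmul]
    exact F.zsmul_mem (pi_nsmul_mem hidx hw) t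

theorem pi_nsmul_mem_iff (hl : l.Prime) (hidx : F.relIndex F' = l) {w : W} (hw : w ∈ F')
    (hwF : w ∉ F) (k : ℕ) : k • w ∈ F ↔ l ∣ k := by
  rw [← natCast_zsmul, pi_zsmul_mem_iff hl hidx hw hwF, Int.natCast_dvd_natCast]

/-- For `w ∈ F' ∖ F` every `x ∈ F'` is `≡ k • w` modulo `F` with `k < l`. -/
theorem pi_exists_coord (hl : l.Prime) (hidx : F.relIndex F' = l) {w : W} (hw : w ∈ F')
    (hwF : w ∉ F) {x : W} (hx : x ∈ F') : ∃ k : ℕ, k < l ∧ x - k • w ∈ F := by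
  haveI : Fact l.Prime := ⟨hl⟩
  have hcard : Nat.card (↥F' ⧸ F.addSubgroupOf F') = l := hidx
  have hne : (QuotientAddGroup.mk (⟨w, hw⟩ : ↥F') : ↥F' ⧸ F.addSubgroupOf F') ≠ 0 := by
    intro h
    rw [QuotientAddGroup.eq_zero_iff] at h
    exact hwF h
  have hmem : (QuotientAddGroup.mk (⟨x, hx⟩ : ↥F') : ↥F' ⧸ F.addSubgroupOf F') ∈
      AddSubgroup.zmultiples
        (QuotientAddGroup.mk (⟨w, hw⟩ : ↥F') : ↥F' ⧸ F.addSubgroupOf F') :=
    mem_zmultiples_of_prime_card (p := l) hcard hne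
  obtain ⟨z, hz⟩ := AddSubgroup.mem_zmultiples_iff.1 hmem
  have h1 : (QuotientAddGroup.mk ((⟨x, hx⟩ : ↥F') - z • ⟨w, hw⟩) :
      ↥F' ⧸ F.addSubgroupOf F') = 0 := by
    rw [QuotientAddGroup.mk_sub, QuotientAddGroup.mk_zsmul, hz, sub_self]
  rw [QuotientAddGroup.eq_zero_iff] at h1
  have h2 : x - z • w ∈ F := h1
  have hlpos : (0 : ℤ) < l := by exact_mod_cast hl.pos
  refine ⟨(z % l).toNat, ?_, ?_⟩
  · have := Int.emod_lt_of_pos z hlpos
    have h0 := Int.emod_nonneg z hlpos.ne'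
    omega
  · have h0 := Int.emod_nonneg z hlpos.ne'
    have e1 : (((z % l).toNat : ℕ) : ℤ) = z % l := Int.toNat_of_nonneg h0
    have e2 : x - (z % l).toNat • w = (x - z • w) + ((l : ℤ) * (z / l)) • w := by
      rw [← natCast_zsmul, e1]
      have : z % l = z - l * (z / l) := by
        have := Int.emod_add_mul_ediv z l
        linarith
      rw [this, sub_smul]
      abel
    rw [e2]
    refine F.add_mem h2 ?_
    rw [pi_zsmul_mem_iff hl hidx hw hwF]
    exact Dvd.intro _ rfl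

/-- `F' ⊄ F`. -/
theorem pi_exists_not_mem (hl : l.Prime) (hidx : F.relIndex F' = l) : ∃ w ∈ F', w ∉ F := by
  by_contra hcon
  have hcon' : F' ≤ F := fun w hw => by
    by_contra hwF
    exact hcon ⟨w, hw, hwF⟩
  have h1 : F.relIndex F' = 1 := AddSubgroup.relIndex_eq_one.2 hcon'
  rw [hidx] at h1
  exact hl.one_lt.ne' h1

/-- `#(F' ⊓ K) = l * #(F ⊓ K)` if `F' ⊓ K ⊄ F`. -/
theorem pi_card_inf (hl : l.Prime) (hle : F ≤ F') (hidx : F.relIndex F' = l)
    (K : AddSubgroup W) {w : W} (hw : w ∈ F') (hwK : w ∈ K) (hwF : w ∉ F) :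
    Nat.card ↥(F' ⊓ K) = l * Nat.card ↥(F ⊓ K) := by
  have hkw : ∀ k : ℕ, k • w ∈ F' ⊓ K := fun k =>
    ⟨F'.nsmul_mem hw k, K.nsmul_mem hwK k⟩
  let f : ↥(F ⊓ K) × Fin l → ↥(F' ⊓ K) := fun x =>
    ⟨(x.1 : W) + (x.2 : ℕ) • w,
      (F' ⊓ K).add_mem ⟨hle x.1.2.1, x.1.2.2⟩ (hkw x.2)⟩
  have hinj : Function.Injective f := by
    rintro ⟨h, k⟩ ⟨h', k'⟩ hff
    have h1 : (h : W) + (k : ℕ) • w = (h' : W) + (k' : ℕ) • w := congrArg Subtype.val hff
    have h2 : (((k : ℕ) : ℤ) - ((k' : ℕ) : ℤ)) • w = (h' : W) - (h : W) := by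
      rw [sub_smul, natCast_zsmul, natCast_zsmul]
      have h1' : (k : ℕ) • w = (h' : W) + (k' : ℕ) • w - (h : W) := by
        rw [← h1]; abel
      rw [h1']
      abel
    have h3 : (((k : ℕ) : ℤ) - ((k' : ℕ) : ℤ)) • w ∈ F := by
      rw [h2]
      exact F.sub_mem h'.2.1 h.2.1
    rw [pi_zsmul_mem_iff hl hidx hw hwF] at h3
    have hk : (k : ℕ) = (k' : ℕ) := by
      obtain ⟨t, ht⟩ := h3
      have hk1 := k.2
      have hk2 := k'.2
      have : t = 0 := by
        by_contra ht0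
        have : (1 : ℤ) ≤ |t| := Int.one_le_abs ht0
        have h4 : |((k : ℕ) : ℤ) - ((k' : ℕ) : ℤ)| = (l : ℤ) * |t| := by
          rw [ht, abs_mul, Nat.abs_cast]
        have h5 : |((k : ℕ) : ℤ) - ((k' : ℕ) : ℤ)| < (l : ℤ) := by
          rw [abs_lt]
          constructor <;> omega
        nlinarith
      rw [this, mul_zero] at ht
      omega
    have hk' : k = k' := Fin.ext hk
    subst hk'
    have h4 : (h : W) = (h' : W) := add_right_cancel h1
    rw [Prod.mk.injEq]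
    exact ⟨Subtype.ext h4, rfl⟩
  have hsurj : Function.Surjective f := by
    rintro ⟨x, hx, hxK⟩
    obtain ⟨k, hk, hkx⟩ := pi_exists_coord hl hidx hw hwF hx
    refine ⟨(⟨x - k • w, hkx, K.sub_mem hxK (K.nsmul_mem hwK k)⟩, ⟨k, hk⟩), ?_⟩
    apply Subtype.ext
    show x - k • w + k • w = x
    abel
  have hcard := Nat.card_congr (Equiv.ofBijective f ⟨hinj, hsurj⟩)
  rw [← hcard, Nat.card_prod, Nat.card_fin, mul_comm]

/-- `#F' = l * #F`. -/
theorem pi_card (hl : l.Prime) (hle : F ≤ F') (hidx : F.relIndex F' = l) :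
    Nat.card ↥F' = l * Nat.card ↥F := by
  obtain ⟨w, hw, hwF⟩ := pi_exists_not_mem hl hidx
  have h := pi_card_inf hl hle hidx ⊤ hw (AddSubgroup.mem_top w) hwF
  rwa [inf_top_eq, inf_top_eq] at h

/-- Monotonicity of the cardinality of an intersection. -/
theorem pi_card_inf_le [Finite W] (hle : F ≤ F') (K : AddSubgroup W) :
    Nat.card ↥(F ⊓ K) ≤ Nat.card ↥(F' ⊓ K) :=
  Nat.card_le_card_of_injective (AddSubgroup.inclusion (inf_le_inf_right K hle))
    (AddSubgroup.inclusion_injective _)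

end Fermat.Agent.EDesc
end MergeWrap_E_Desc_Dev_Basic

section MergeWrap_E_Desc_Dev_Sel -- from E/Desc/Dev/Sel.lean

/-!
# E' / Desc / Dev / Sel : normalised Selmer cocycles and the bound to be propagated
(seat DESC-DEV, helper90)

* `DevCtx W` : the ambient data (primes, places, flat condition, smoothness of `W`);
* `DevCtx.Sel B c` : `c` is a Selmer cocycle with values in `B`, vanishing on `I_p`;
* `CohomIn B c c'` : `c - c'` is the coboundary of an element of `B`;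
* `DevCtx.Bound B a` : every family of pairwise non-`B`-cohomologous `Sel B`-cocycles has
  `#J * l'^a * #(B ∩ W^{I_p}) ≤ #(B ∩ W^Γ) * #B`;
* `bound_bot`, `ext_one`, `ext_l` : base case and the two extension lemmas.
-/

set_option autoImplicit false
set_option linter.unusedSectionVars false
set_option linter.style.haveILetI false

noncomputable section

namespace Fermat.Agent.EDesc

local notation "Qb" => AlgebraicClosure ℚ
local notation "GQb" => (AlgebraicClosure ℚ ≃ₐ[ℚ] AlgebraicClosure ℚ)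

section

variable {W : Type*} [AddCommGroup W] [DistribMulAction GQb W]

/-- the coboundary of `w`. -/
def dcob (w : W) : GQb → W := fun σ => σ • w - w

@[simp] theorem dcob_apply (w : W) (σ : GQb) : dcob w σ = σ • w - w := rfl

theorem dcob_isCoc (w : W) : IsCoc (dcob w) := by
  intro σ τ
  simp only [dcob_apply, mul_smul, smul_sub]
  abel

theorem dcob_nsmul (k : ℕ) (w : W) (σ : GQb) : dcob (k • w) σ = k • dcob w σ := by
  simp only [dcob_apply, smul_sub, smul_comm σ k w]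

theorem dcob_add (w w' : W) (σ : GQb) : dcob (w + w') σ = dcob w σ + dcob w' σ := by
  simp only [dcob_apply, smul_add]
  abel

theorem dcob_sub (w w' : W) (σ : GQb) : dcob (w - w') σ = dcob w σ - dcob w' σ := by
  simp only [dcob_apply, smul_sub]
  abel

theorem dcob_isCtsCoc (hs : SmoothMod W) (w : W) : IsCtsCoc (dcob w) := by
  obtain ⟨E, hE, h⟩ := hs
  refine ⟨E, hE, fun σ τ hτ => ?_⟩
  simp only [dcob_apply, mul_smul, h τ hτ w]

theorem IsCoc.add {c c' : GQb → W} (h : IsCoc c) (h' : IsCoc c') : IsCoc (c + c') := by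
  intro σ τ
  simp only [Pi.add_apply, h σ τ, h' σ τ, smul_add]
  abel

theorem IsCoc.neg {c : GQb → W} (h : IsCoc c) : IsCoc (-c) := by
  intro σ τ
  simp only [Pi.neg_apply, h σ τ, smul_neg]
  abel

theorem IsCoc.map_one {c : GQb → W} (h : IsCoc c) : c 1 = 0 := by
  have := h 1 1
  simp only [mul_one, one_smul] at this
  have h2 : c 1 + c 1 = c 1 + 0 := by rw [add_zero]; exact this.symm
  exact add_left_cancel h2

theorem IsCoc.map_inv {c : GQb → W} (h : IsCoc c) (σ : GQb) : c σ⁻¹ = -(σ⁻¹ • c σ) := by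
  have h1 := h σ⁻¹ σ
  rw [inv_mul_cancel, h.map_one] at h1
  exact eq_neg_of_add_eq_zero_left h1.symm

theorem IsCtsCoc.add {c c' : GQb → W} (h : IsCtsCoc c) (h' : IsCtsCoc c') :
    IsCtsCoc (c + c') := by
  obtain ⟨E, hE, hc⟩ := h
  obtain ⟨E', hE', hc'⟩ := h'
  haveI := hE
  haveI := hE'
  refine ⟨E ⊔ E', inferInstance, fun σ τ hτ => ?_⟩
  have h1 : τ ∈ E.fixingSubgroup :=
    (IntermediateField.fixingSubgroup_antitone (le_sup_left : E ≤ E ⊔ E')) hτ
  have h2 : τ ∈ E'.fixingSubgroup :=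
    (IntermediateField.fixingSubgroup_antitone (le_sup_right : E' ≤ E ⊔ E')) hτ
  simp only [Pi.add_apply, hc σ τ h1, hc' σ τ h2]

theorem IsCtsCoc.neg {c : GQb → W} (h : IsCtsCoc c) : IsCtsCoc (-c) := by
  obtain ⟨E, hE, hc⟩ := h
  exact ⟨E, hE, fun σ τ hτ => by simp only [Pi.neg_apply, hc σ τ hτ]⟩

theorem UnramCoc.add {S : Set ℕ} {c c' : GQb → W} (h : UnramCoc S c) (h' : UnramCoc S c') :
    UnramCoc S (c + c') := fun r hr hrS A hA σ hσ => by
  simp only [Pi.add_apply, h r hr hrS A hA σ hσ, h' r hr hrS A hA σ hσ, add_zero]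

theorem UnramCoc.neg {S : Set ℕ} {c : GQb → W} (h : UnramCoc S c) :
    UnramCoc S (-c) := fun r hr hrS A hA σ hσ => by
  simp only [Pi.neg_apply, h r hr hrS A hA σ hσ, neg_zero]

theorem dcob_unramCoc {S : Set ℕ} (hu : UnramMod W S) (w : W) : UnramCoc S (dcob w) :=
  fun r hr hrS A hA σ hσ => by
    simp only [dcob_apply, hu r hr hrS A hA σ hσ w, sub_self]

/-- `c - c'` is the coboundary of an element of `B`. -/
def CohomIn (B : AddSubgroup W) (c c' : GQb → W) : Prop :=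
  ∃ w ∈ B, ∀ σ : GQb, c σ - c' σ = σ • w - w

theorem CohomIn.mono {B B' : AddSubgroup W} (h : B ≤ B') {c c' : GQb → W}
    (hc : CohomIn B c c') : CohomIn B' c c' := by
  obtain ⟨w, hw, h1⟩ := hc
  exact ⟨w, h hw, h1⟩

variable (W)

/-- The ambient data of the dévissage. -/
structure DevCtx where
  /-- the prime `p` -/
  p : ℕ
  /-- the prime `l'` -/
  l : ℕ
  hl : l.Prime
  /-- the place over `p` -/
  Ap : ValuationSubring Qb
  /-- the place over `l'` -/
  Al : ValuationSubring Qb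
  /-- the flat condition -/
  Flat : (GQb → W) → Prop
  smooth : SmoothMod W
  unram : UnramMod W {p, l}
  flat_add : ∀ c c', Flat c → Flat c' → Flat (c + c')
  flat_neg : ∀ c, Flat c → Flat (-c)
  flat_cob : ∀ w : W, Flat fun σ => σ • w - w

variable {W}

namespace DevCtx

variable (X : DevCtx W)

/-- the inertia invariants `W^{I_p}`. -/
def WI : AddSubgroup W := fixedBy W (X.Ap.inertiaSubgroupIn ℚ)

/-- the invariants `W^Γ`. -/
def WG (_X : DevCtx W) : AddSubgroup W := fixedBy W (⊤ : Subgroup GQb)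

theorem mem_WI {w : W} : w ∈ X.WI ↔ ∀ σ ∈ X.Ap.inertiaSubgroupIn ℚ, σ • w = w := Iff.rfl

theorem mem_WG {w : W} : w ∈ X.WG ↔ ∀ σ : GQb, σ • w = w :=
  ⟨fun h σ => h σ (Subgroup.mem_top σ), fun h σ _ => h σ⟩

theorem WG_le_WI : X.WG ≤ X.WI := fun _ hw σ _ => hw σ (Subgroup.mem_top σ)

/-- `c` is a Selmer cocycle with values in `B`, normalised to vanish on `I_p`. -/
structure Sel (B : AddSubgroup W) (c : GQb → W) : Prop where
  coc : IsCoc c
  cts : IsCtsCoc c
  unr : UnramCoc {X.p, X.l} c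
  zero_p : ∀ σ ∈ X.Ap.inertiaSubgroupIn ℚ, c σ = 0
  flat : X.Flat c
  mem : ∀ σ : GQb, c σ ∈ B

variable {X}

theorem Sel.mono {B B' : AddSubgroup W} (h : B ≤ B') {c : GQb → W} (hc : X.Sel B c) :
    X.Sel B' c :=
  ⟨hc.coc, hc.cts, hc.unr, hc.zero_p, hc.flat, fun σ => h (hc.mem σ)⟩

theorem Sel.of_mem {B B' : AddSubgroup W} {c : GQb → W} (hc : X.Sel B' c)
    (h : ∀ σ, c σ ∈ B) : X.Sel B c :=
  ⟨hc.coc, hc.cts, hc.unr, hc.zero_p, hc.flat, h⟩

theorem Sel.add {B : AddSubgroup W} {c c' : GQb → W} (hc : X.Sel B c) (hc' : X.Sel B c') :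
    X.Sel B (c + c') :=
  ⟨hc.coc.add hc'.coc, hc.cts.add hc'.cts, hc.unr.add hc'.unr,
    fun σ hσ => by simp only [Pi.add_apply, hc.zero_p σ hσ, hc'.zero_p σ hσ, add_zero],
    X.flat_add c c' hc.flat hc'.flat, fun σ => B.add_mem (hc.mem σ) (hc'.mem σ)⟩

theorem Sel.neg {B : AddSubgroup W} {c : GQb → W} (hc : X.Sel B c) : X.Sel B (-c) :=
  ⟨hc.coc.neg, hc.cts.neg, hc.unr.neg,
    fun σ hσ => by simp only [Pi.neg_apply, hc.zero_p σ hσ, neg_zero],
    X.flat_neg c hc.flat, fun σ => B.neg_mem (hc.mem σ)⟩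

theorem Sel.sub {B : AddSubgroup W} {c c' : GQb → W} (hc : X.Sel B c) (hc' : X.Sel B c') :
    X.Sel B (c - c') := by
  rw [sub_eq_add_neg]
  exact hc.add hc'.neg

/-- the coboundary of an `I_p`-invariant element is a Selmer cocycle. -/
theorem sel_dcob {B : AddSubgroup W} {w : W} (hw : w ∈ X.WI) (h : ∀ σ, dcob w σ ∈ B) :
    X.Sel B (dcob w) :=
  ⟨dcob_isCoc w, dcob_isCtsCoc X.smooth w, dcob_unramCoc X.unram w,
    fun σ hσ => by simp only [dcob_apply, hw σ hσ, sub_self], X.flat_cob w, h⟩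

variable (X)

/-- The bound propagated by the dévissage. -/
def Bound (B : AddSubgroup W) (a : ℕ) : Prop :=
  ∀ (J : Type) [Finite J] (c : J → GQb → W), (∀ j, X.Sel B (c j)) →
    (∀ j j', j ≠ j' → ¬ CohomIn B (c j) (c j')) →
    Nat.card J * X.l ^ a * Nat.card ↥(B ⊓ X.WI) ≤ Nat.card ↥(B ⊓ X.WG) * Nat.card ↥B

/-- base case. -/
theorem bound_bot : X.Bound ⊥ 0 := by
  intro J _ c hc hne
  have hsub : Subsingleton J := by
    refine ⟨fun j j' => ?_⟩
    by_contra hjj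
    apply hne j j' hjj
    refine ⟨0, AddSubgroup.zero_mem _, fun σ => ?_⟩
    have h1 : c j σ = 0 := (AddSubgroup.mem_bot).1 ((hc j).mem σ)
    have h2 : c j' σ = 0 := (AddSubgroup.mem_bot).1 ((hc j').mem σ)
    rw [h1, h2, smul_zero, sub_self]
  have h1 : Nat.card J ≤ 1 := Finite.card_le_one_iff_subsingleton.2 hsub
  have h2 : Nat.card ↥((⊥ : AddSubgroup W) ⊓ X.WI) = 1 := by
    rw [bot_inf_eq]; exact AddSubgroup.card_bot
  have h3 : Nat.card ↥((⊥ : AddSubgroup W) ⊓ X.WG) = 1 := by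
    rw [bot_inf_eq]; exact AddSubgroup.card_bot
  have h4 : Nat.card ↥(⊥ : AddSubgroup W) = 1 := AddSubgroup.card_bot
  rw [h2, h3, h4, pow_zero]
  simpa using h1

variable {X}

/-- **EXT1**. -/
theorem ext_one [Finite W] {F F' : AddSubgroup W} (hle : F ≤ F') {a : ℕ} (hB : X.Bound F a)
    (J : Type) [Finite J] (c : J → GQb → W) (hc : ∀ j, X.Sel F (c j))
    (hne : ∀ j j', j ≠ j' → ¬ CohomIn F' (c j) (c j')) :
    Nat.card J * X.l ^ a * Nat.card ↥(F ⊓ X.WI) ≤ Nat.card ↥(F' ⊓ X.WG) * Nat.card ↥F := by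
  have h1 := hB J c hc (fun j j' hjj h => hne j j' hjj (h.mono hle))
  exact h1.trans (Nat.mul_le_mul_right _ (pi_card_inf_le hle X.WG))

/-- **EXTl**: if `F' ∩ W^{I_p} ⊄ F` (and `Γ` acts trivially on the new element modulo `F`),
the bound gains a factor `l'`. -/
theorem ext_l [Finite W] {F F' : AddSubgroup W} (hle : F ≤ F') (hidx : F.relIndex F' = X.l)
    {a : ℕ} (hB : X.Bound F a) {w₀ : W} (hw₀ : w₀ ∈ F') (hw₀I : w₀ ∈ X.WI) (hw₀F : w₀ ∉ F)
    (htriv : ∀ σ : GQb, σ • w₀ - w₀ ∈ F)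
    (J : Type) [Finite J] (c : J → GQb → W) (hc : ∀ j, X.Sel F (c j))
    (hne : ∀ j j', j ≠ j' → ¬ CohomIn F' (c j) (c j')) :
    Nat.card J * X.l * X.l ^ a * Nat.card ↥(F ⊓ X.WI) ≤
      Nat.card ↥(F' ⊓ X.WG) * Nat.card ↥F := by
  by_cases hfix : ∃ v, v ∈ F' ∧ v ∈ X.WG ∧ v ∉ F
  · obtain ⟨v, hv, hvG, hvF⟩ := hfix
    have h1 := hB J c hc (fun j j' hjj h => hne j j' hjj (h.mono hle))
    have h2 : Nat.card ↥(F' ⊓ X.WG) = X.l * Nat.card ↥(F ⊓ X.WG) :=
      pi_card_inf X.hl hle hidx X.WG hv hvG hvF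
    rw [h2]
    calc Nat.card J * X.l * X.l ^ a * Nat.card ↥(F ⊓ X.WI)
        = X.l * (Nat.card J * X.l ^ a * Nat.card ↥(F ⊓ X.WI)) := by ring
      _ ≤ X.l * (Nat.card ↥(F ⊓ X.WG) * Nat.card ↥F) := Nat.mul_le_mul_left _ h1
      _ = X.l * Nat.card ↥(F ⊓ X.WG) * Nat.card ↥F := by ring
  · -- extend the family by the coboundaries of `k • w₀`
    have hfix' : ∀ v, v ∈ F' → v ∈ X.WG → v ∈ F := fun v hv hvG => by
      by_contra hvF
      exact hfix ⟨v, hv, hvG, hvF⟩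
    have hkI : ∀ k : ℕ, k • w₀ ∈ X.WI := fun k => X.WI.nsmul_mem hw₀I k
    have hkF : ∀ (k : ℕ) (σ : GQb), dcob (k • w₀) σ ∈ F := fun k σ => by
      rw [dcob_nsmul]
      exact F.nsmul_mem (htriv σ) k
    let c' : J × Fin X.l → GQb → W := fun x => c x.1 + dcob ((x.2 : ℕ) • w₀)
    have hc' : ∀ x, X.Sel F (c' x) := fun x =>
      (hc x.1).add (sel_dcob (hkI x.2) (hkF x.2))
    have hne' : ∀ x x', x ≠ x' → ¬ CohomIn F (c' x) (c' x') := by
      rintro ⟨j, k⟩ ⟨j', k'⟩ hxx ⟨w, hw, h⟩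
      have hkey : ∀ σ : GQb, c j σ - c j' σ =
          σ • (w + ((k' : ℕ) • w₀ - (k : ℕ) • w₀)) - (w + ((k' : ℕ) • w₀ - (k : ℕ) • w₀)) := by
        intro σ
        have h1 := h σ
        simp only [c', Pi.add_apply, dcob_apply] at h1
        have h2 : c j σ - c j' σ = (σ • w - w) + (σ • ((k' : ℕ) • w₀) - (k' : ℕ) • w₀)
            - (σ • ((k : ℕ) • w₀) - (k : ℕ) • w₀) := by
          rw [← h1]; abel
        rw [h2, smul_add, smul_sub]
        abel
      have hmem : w + ((k' : ℕ) • w₀ - (k : ℕ) • w₀) ∈ F' :=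
        F'.add_mem (hle hw) (F'.sub_mem (F'.nsmul_mem hw₀ _) (F'.nsmul_mem hw₀ _))
      have hjj : j = j' := by
        by_contra hjj
        exact hne j j' hjj ⟨_, hmem, hkey⟩
      subst hjj
      have hG : w + ((k' : ℕ) • w₀ - (k : ℕ) • w₀) ∈ X.WG := by
        rw [mem_WG]
        intro σ
        have := hkey σ
        rw [sub_self] at this
        exact (sub_eq_zero.1 this.symm)
      have hF := hfix' _ hmem hG
      have hF2 : (((k' : ℕ) : ℤ) - ((k : ℕ) : ℤ)) • w₀ ∈ F := by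
        have : (((k' : ℕ) : ℤ) - ((k : ℕ) : ℤ)) • w₀ =
            (w + ((k' : ℕ) • w₀ - (k : ℕ) • w₀)) - w := by
          rw [sub_smul, natCast_zsmul, natCast_zsmul]; abel
        rw [this]
        exact F.sub_mem hF hw
      rw [pi_zsmul_mem_iff X.hl hidx hw₀ hw₀F] at hF2
      have hk1 := k.2
      have hk2 := k'.2
      have hkk : (k : ℕ) = (k' : ℕ) := by
        obtain ⟨t, ht⟩ := hF2
        have : t = 0 := by
          by_contra ht0
          have : (1 : ℤ) ≤ |t| := Int.one_le_abs ht0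
          have h4 : |((k' : ℕ) : ℤ) - ((k : ℕ) : ℤ)| = (X.l : ℤ) * |t| := by
            rw [ht, abs_mul, Nat.abs_cast]
          have h5 : |((k' : ℕ) : ℤ) - ((k : ℕ) : ℤ)| < (X.l : ℤ) := by
            rw [abs_lt]
            constructor <;> omega
          nlinarith
        rw [this, mul_zero] at ht
        omega
      exact hxx (Prod.ext rfl (Fin.ext hkk))
    have h1 := hB (J × Fin X.l) c' hc' hne'
    rw [Nat.card_prod, Nat.card_fin] at h1
    exact h1.trans (Nat.mul_le_mul_right _ (pi_card_inf_le hle X.WG))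

end DevCtx

end

end Fermat.Agent.EDesc
end
end MergeWrap_E_Desc_Dev_Sel

section MergeWrap_E_Desc_Dev_StepEt -- from E/Desc/Dev/StepEt.lean

/-!
# E' / Desc / Dev / StepEt : the step of the dévissage over a piece of type `et`
(seat DESC-DEV, helper90)

`F ≤ F'` of index `l'` with trivial action on `F' / F`.  By `PcsEt` (Minkowski) every Selmer
cocycle with values in `F'` has values in `F`; hence `Bound F a → Bound F' (a + 1)`.
-/

set_option autoImplicit false
set_option linter.unusedSectionVars false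
set_option linter.style.haveILetI false

noncomputable section

namespace Fermat.Agent.EDesc

local notation "Qb" => AlgebraicClosure ℚ
local notation "GQb" => (AlgebraicClosure ℚ ≃ₐ[ℚ] AlgebraicClosure ℚ)

namespace DevCtx

variable {W : Type*} [AddCommGroup W] [DistribMulAction GQb W] {X : DevCtx W}

/-- the homomorphism `G_ℚ → F' / F` defined by a cocycle with values in `F'`, when the action
on `F' / F` is trivial. -/
def etHom {F F' : AddSubgroup W} (htriv : ∀ (σ : GQb) (w : W), w ∈ F' → σ • w - w ∈ F)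
    {c : GQb → W} (hcoc : IsCoc c) (hmem : ∀ σ, c σ ∈ F') :
    GQb →* Multiplicative (↥F' ⧸ F.addSubgroupOf F') where
  toFun σ := Multiplicative.ofAdd (QuotientAddGroup.mk (⟨c σ, hmem σ⟩ : ↥F'))
  map_one' := by
    have h : (⟨c 1, hmem 1⟩ : ↥F') = 0 := Subtype.ext hcoc.map_one
    rw [h]
    rfl
  map_mul' σ τ := by
    rw [← ofAdd_add, ← QuotientAddGroup.mk_add]
    congr 1
    rw [QuotientAddGroup.eq]
    show -c (σ * τ) + (c σ + c τ) ∈ F
    rw [hcoc σ τ]
    have h1 := htriv σ (c τ) (hmem τ)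
    have h2 : -(c σ + σ • c τ) + (c σ + c τ) = -(σ • c τ - c τ) := by abel
    rw [h2]
    exact F.neg_mem h1

theorem mem_ker_etHom {F F' : AddSubgroup W}
    (htriv : ∀ (σ : GQb) (w : W), w ∈ F' → σ • w - w ∈ F)
    {c : GQb → W} (hcoc : IsCoc c) (hmem : ∀ σ, c σ ∈ F') (σ : GQb) :
    σ ∈ (etHom htriv hcoc hmem).ker ↔ c σ ∈ F := by
  rw [MonoidHom.mem_ker]
  show Multiplicative.ofAdd (QuotientAddGroup.mk (⟨c σ, hmem σ⟩ : ↥F')) = 1 ↔ _
  rw [← ofAdd_zero, Multiplicative.ofAdd.injective.eq_iff, QuotientAddGroup.eq_zero_iff]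
  rfl

/-- **a Selmer cocycle with values in `F'` has values in `F`** (piece of type `et`). -/
theorem sel_mem_of_et (hEt : PcsEt X.p X.l X.Ap X.Al) {F F' : AddSubgroup W}
    (hidx : F.relIndex F' = X.l)
    (htriv : ∀ (σ : GQb) (w : W), w ∈ F' → σ • w - w ∈ F)
    (hflat : ∀ c : GQb → W, IsCoc c → X.Flat c → (∀ σ, c σ ∈ F') →
      ∀ σ ∈ X.Al.inertiaSubgroupIn ℚ, c σ ∈ F)
    {c : GQb → W} (hc : X.Sel F' c) (σ : GQb) : c σ ∈ F := by
  set φ := etHom htriv hc.coc hc.mem with hφ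
  have hker : ∀ τ, τ ∈ φ.ker ↔ c τ ∈ F := mem_ker_etHom htriv hc.coc hc.mem
  have hcard : Nat.card (↥F' ⧸ F.addSubgroupOf F') = X.l := hidx
  have htop : φ.ker = ⊤ := by
    refine hEt φ.ker inferInstance ?_ ?_ ?_ ?_ ?_ ?_
    · obtain ⟨E, hE, h⟩ := hc.cts
      refine ⟨E, hE, fun τ hτ => ?_⟩
      rw [hker]
      have := h 1 τ hτ
      rw [one_mul, hc.coc.map_one] at this
      rw [this]
      exact F.zero_mem
    · intro τ
      rw [MonoidHom.mem_ker, map_pow]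
      have h1 : (X.l) • (Multiplicative.toAdd (φ τ)) = 0 := by
        rw [← hcard]; exact card_nsmul_eq_zero'
      have h2 : Multiplicative.toAdd ((φ τ) ^ X.l) = 0 := by
        rw [toAdd_pow]; exact h1
      exact Multiplicative.toAdd.injective h2
    · intro τ τ'
      rw [MonoidHom.mem_ker]
      simp only [map_mul, map_inv]
      rw [mul_comm (φ τ) (φ τ'), mul_assoc, mul_assoc, mul_inv_cancel_left, mul_inv_cancel]
    · intro r hr hrS A hA τ hτ
      rw [hker, hc.unr r hr hrS A hA τ hτ]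
      exact F.zero_mem
    · intro τ hτ
      rw [hker, hc.zero_p τ hτ]
      exact F.zero_mem
    · intro τ hτ
      rw [hker]
      exact hflat c hc.coc hc.flat hc.mem τ hτ
  rw [← hker, htop]
  exact Subgroup.mem_top σ

/-- **the `et` step**. -/
theorem bound_step_et [Finite W] (hEt : PcsEt X.p X.l X.Ap X.Al) {F F' : AddSubgroup W}
    (hle : F ≤ F') (hidx : F.relIndex F' = X.l)
    (htriv : ∀ (σ : GQb) (w : W), w ∈ F' → σ • w - w ∈ F)
    (hflat : ∀ c : GQb → W, IsCoc c → X.Flat c → (∀ σ, c σ ∈ F') →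
      ∀ σ ∈ X.Al.inertiaSubgroupIn ℚ, c σ ∈ F)
    {a : ℕ} (hB : X.Bound F a) : X.Bound F' (a + 1) := by
  intro J _ c hc hne
  have hcF : ∀ j, X.Sel F (c j) := fun j =>
    (hc j).of_mem (sel_mem_of_et hEt hidx htriv hflat (hc j))
  have hN : Nat.card ↥F' = X.l * Nat.card ↥F := pi_card X.hl hle hidx
  by_cases hE : ∃ w₀, w₀ ∈ F' ∧ w₀ ∈ X.WI ∧ w₀ ∉ F
  · obtain ⟨w₀, hw₀, hw₀I, hw₀F⟩ := hE
    have hA : Nat.card ↥(F' ⊓ X.WI) = X.l * Nat.card ↥(F ⊓ X.WI) :=
      pi_card_inf X.hl hle hidx X.WI hw₀ hw₀I hw₀F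
    have h1 := ext_l hle hidx hB hw₀ hw₀I hw₀F (fun σ => htriv σ w₀ hw₀) J c hcF hne
    rw [hA, hN]
    calc Nat.card J * X.l ^ (a + 1) * (X.l * Nat.card ↥(F ⊓ X.WI))
        = X.l * (Nat.card J * X.l * X.l ^ a * Nat.card ↥(F ⊓ X.WI)) := by ring
      _ ≤ X.l * (Nat.card ↥(F' ⊓ X.WG) * Nat.card ↥F) := Nat.mul_le_mul_left _ h1
      _ = Nat.card ↥(F' ⊓ X.WG) * (X.l * Nat.card ↥F) := by ring
  · have hEq : F' ⊓ X.WI = F ⊓ X.WI := by
      apply le_antisymm
      · intro w hw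
        refine ⟨?_, hw.2⟩
        by_contra hwF
        exact hE ⟨w, hw.1, hw.2, hwF⟩
      · exact inf_le_inf_right _ hle
    have h1 := ext_one hle hB J c hcF hne
    rw [hEq, hN]
    calc Nat.card J * X.l ^ (a + 1) * Nat.card ↥(F ⊓ X.WI)
        = X.l * (Nat.card J * X.l ^ a * Nat.card ↥(F ⊓ X.WI)) := by ring
      _ ≤ X.l * (Nat.card ↥(F' ⊓ X.WG) * Nat.card ↥F) := Nat.mul_le_mul_left _ h1
      _ = Nat.card ↥(F' ⊓ X.WG) * (X.l * Nat.card ↥F) := by ring

end DevCtx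

end Fermat.Agent.EDesc
end
end MergeWrap_E_Desc_Dev_StepEt

section MergeWrap_E_Desc_Dev_Mu -- from E/Desc/Dev/Mu.lean

/-!
# E' / Desc / Dev / Mu : counting Kummer cocycles (seat DESC-DEV, helper90)

Consequences of `PcsMu` (a Kummer cocycle is `σ ↦ σ ζ / ζ` with `ζ ^ (2 l') = 1`):

* `kum_exists_label` : the Kummer cocycles can be labelled by `Fin l'` injectively
  (there are at most `l'` of them);
* `kum_exists_root_of_odd` : for odd `l'` a Kummer cocycle is the coboundary of an `l'`-th root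
  of unity;
* `fiber_card_bound` : the counting lemma for labelled families.
-/

set_option autoImplicit false
set_option linter.unusedSectionVars false
set_option linter.style.haveILetI false

noncomputable section

namespace Fermat.Agent.EDesc

local notation "Qb" => AlgebraicClosure ℚ
local notation "GQb" => (AlgebraicClosure ℚ ≃ₐ[ℚ] AlgebraicClosure ℚ)

/-- an element with square `1` is fixed by Galois. -/
theorem kum_fixed_of_sq {ε : Qb} (h : ε ^ 2 = 1) (σ : GQb) : σ ε = ε := by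
  rcases sq_eq_one_iff.1 h with h1 | h1
  · rw [h1, map_one]
  · rw [h1, map_neg, map_one]

/-- there is a primitive `2 l'`-th root of unity `ω`, and every Kummer cocycle is the
coboundary of `ω ^ t` for some `t < l'`. -/
theorem kum_exists_exp {p l' : ℕ} (hl : l'.Prime) {Ap Al : ValuationSubring Qb}
    (hMu : PcsMu p l' Ap Al) :
    ∃ ω : Qb, ω ≠ 0 ∧ ∀ κ : GQb → Qb, IsKum p l' Ap Al κ →
      ∃ t : ℕ, t < l' ∧ ∀ σ : GQb, κ σ * ω ^ t = σ (ω ^ t) := by
  have hne : (2 * l' : ℕ) ≠ 0 := Nat.mul_ne_zero two_ne_zero hl.ne_zero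
  haveI : NeZero (2 * l' : ℕ) := ⟨hne⟩
  haveI : NeZero ((2 * l' : ℕ) : ℚ) := ⟨by exact_mod_cast hne⟩
  obtain ⟨ω, hω⟩ := HasEnoughRootsOfUnity.exists_primitiveRoot Qb (2 * l')
  have hω0 : ω ≠ 0 := hω.ne_zero hne
  refine ⟨ω, hω0, fun κ hκ => ?_⟩
  obtain ⟨ζ, hζ, hκζ⟩ := hMu κ hκ
  obtain ⟨m, -, hm⟩ := hω.eq_pow_of_pow_eq_one hζ
  have hε2 : (ω ^ l') ^ 2 = 1 := by
    rw [← pow_mul, mul_comm]; exact hω.pow_eq_one
  have hεfix : ∀ (q : ℕ) (σ : GQb), σ ((ω ^ l') ^ q) = (ω ^ l') ^ q := fun q σ => by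
    rw [map_pow, kum_fixed_of_sq hε2 σ]
  refine ⟨m % l', Nat.mod_lt _ hl.pos, fun σ => ?_⟩
  have hdec : ζ = (ω ^ l') ^ (m / l') * ω ^ (m % l') := by
    rw [← hm, ← pow_mul, ← pow_add, Nat.div_add_mod]
  have h1 := hκζ σ
  rw [hdec, map_mul, hεfix] at h1
  have hε0 : (ω ^ l') ^ (m / l') ≠ 0 := pow_ne_zero _ (pow_ne_zero _ hω0)
  apply mul_left_cancel₀ hε0
  rw [← h1]
  ring

/-- **there are at most `l'` Kummer cocycles**: they are labelled injectively by `Fin l'`. -/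
theorem kum_exists_label {p l' : ℕ} (hl : l'.Prime) {Ap Al : ValuationSubring Qb}
    (hMu : PcsMu p l' Ap Al) :
    ∃ lab : (GQb → Qb) → Fin l', ∀ κ κ' : GQb → Qb, IsKum p l' Ap Al κ →
      IsKum p l' Ap Al κ' → lab κ = lab κ' → κ = κ' := by
  classical
  obtain ⟨ω, hω0, hω⟩ := kum_exists_exp hl hMu
  refine ⟨fun κ => if h : IsKum p l' Ap Al κ then ⟨(hω κ h).choose, (hω κ h).choose_spec.1⟩
    else ⟨0, hl.pos⟩, fun κ κ' hκ hκ' hlab => ?_⟩
  simp only [dif_pos hκ, dif_pos hκ'] at hlab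
  have ht : (hω κ hκ).choose = (hω κ' hκ').choose := congrArg Fin.val hlab
  have h1 := (hω κ hκ).choose_spec.2
  have h2 := (hω κ' hκ').choose_spec.2
  rw [← ht] at h2
  funext σ
  have h0 : ω ^ (hω κ hκ).choose ≠ 0 := pow_ne_zero _ hω0
  apply mul_right_cancel₀ h0
  rw [h1 σ, h2 σ]

/-- for odd `l'` a Kummer cocycle is the coboundary of an `l'`-th root of unity. -/
theorem kum_exists_root_of_odd {p l' : ℕ} (hodd : Odd l') {Ap Al : ValuationSubring Qb}
    (hMu : PcsMu p l' Ap Al) {κ : GQb → Qb} (hκ : IsKum p l' Ap Al κ) :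
    ∃ ξ : Qb, ξ ^ l' = 1 ∧ ∀ σ : GQb, κ σ * ξ = σ ξ := by
  obtain ⟨ζ, hζ, hκζ⟩ := hMu κ hκ
  have hε2 : (ζ ^ l') ^ 2 = 1 := by
    rw [← pow_mul, mul_comm]; exact hζ
  obtain ⟨k, hk⟩ := hodd
  refine ⟨ζ ^ l' * ζ, ?_, fun σ => ?_⟩
  · rw [mul_pow, ← pow_succ]
    have : l' + 1 = 2 * (k + 1) := by omega
    rw [this, pow_mul, hε2, one_pow]
  · rw [map_mul, kum_fixed_of_sq hε2 σ, ← hκζ σ]
    ring

/-- The counting lemma for labelled families. -/
theorem fiber_card_bound {J T : Type*} [Finite J] [Fintype T] (lab : J → T) (x y : ℕ)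
    (h : ∀ t : T, Nat.card {j : J // lab j = t} * x ≤ y) :
    Nat.card J * x ≤ Fintype.card T * y := by
  have h1 : Nat.card J = ∑ t : T, Nat.card {j : J // lab j = t} := by
    rw [← Nat.card_sigma]
    exact Nat.card_congr (Equiv.sigmaFiberEquiv lab).symm
  rw [h1, Finset.sum_mul]
  calc ∑ t : T, Nat.card {j : J // lab j = t} * x ≤ ∑ _t : T, y :=
        Finset.sum_le_sum fun t _ => h t
    _ = Fintype.card T * y := by
        rw [Finset.sum_const, Finset.card_univ, smul_eq_mul]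

end Fermat.Agent.EDesc
end
end MergeWrap_E_Desc_Dev_Mu

section MergeWrap_E_Desc_Dev_StepMu -- from E/Desc/Dev/StepMu.lean

/-!
# E' / Desc / Dev / StepMu : the step of the dévissage over a piece of type `mu`
(seat DESC-DEV, helper90)

`F ≤ F'` of index `l'` with `F' / F ≅ μ_{l'}` through the coordinate `ι`.  A Selmer cocycle `c`
with values in `F'` gives the Kummer cocycle `ι ∘ c`; by `PcsMu` there are at most `l'` of
them, and they are coboundaries of `l'`-th roots of unity if `l'` is odd.  Hence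
`Bound F a → Bound F' a`.
-/

set_option autoImplicit false
set_option linter.unusedSectionVars false
set_option linter.style.haveILetI false

noncomputable section

namespace Fermat.Agent.EDesc

local notation "Qb" => AlgebraicClosure ℚ
local notation "GQb" => (AlgebraicClosure ℚ ≃ₐ[ℚ] AlgebraicClosure ℚ)

variable {W : Type*} [AddCommGroup W] [DistribMulAction GQb W]

/-- the data of a piece of type `mu`. -/
structure MuPiece (F F' : AddSubgroup W) (ι : W → Qb) : Prop where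
  le : F ≤ F'
  stab : ∀ (σ : GQb) (w : W), w ∈ F' → σ • w ∈ F'
  ι_mul : ∀ w w' : W, w ∈ F' → w' ∈ F' → ι (w + w') = ι w * ι w'
  ι_one_iff : ∀ w : W, w ∈ F' → (ι w = 1 ↔ w ∈ F)
  ι_smul : ∀ (σ : GQb) (w : W), w ∈ F' → ι (σ • w) = σ (ι w)

namespace MuPiece

variable {F F' : AddSubgroup W} {ι : W → Qb} (P : MuPiece F F' ι)
include P

theorem ι_zero : ι 0 = 1 := (P.ι_one_iff 0 F'.zero_mem).2 F.zero_mem

theorem ι_mul_neg {w : W} (hw : w ∈ F') : ι w * ι (-w) = 1 := by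
  rw [← P.ι_mul w (-w) hw (F'.neg_mem hw), add_neg_cancel, P.ι_zero]

theorem ι_ne_zero {w : W} (hw : w ∈ F') : ι w ≠ 0 :=
  left_ne_zero_of_mul_eq_one (P.ι_mul_neg hw)

theorem ι_nsmul {w : W} (hw : w ∈ F') (k : ℕ) : ι (k • w) = ι w ^ k := by
  induction k with
  | zero => rw [zero_smul, pow_zero, P.ι_zero]
  | succ k ih => rw [succ_nsmul, P.ι_mul _ _ (F'.nsmul_mem hw k) hw, ih, pow_succ]

theorem sub_mem_of_ι_eq {w w' : W} (hw : w ∈ F') (hw' : w' ∈ F') (h : ι w = ι w') :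
    w - w' ∈ F := by
  rw [← P.ι_one_iff _ (F'.sub_mem hw hw')]
  have h1 : ι (w - w') * ι w' = ι w := by
    rw [← P.ι_mul _ _ (F'.sub_mem hw hw') hw', sub_add_cancel]
  have h2 : ι (w - w') * ι w' = 1 * ι w' := by rw [h1, h, one_mul]
  exact mul_right_cancel₀ (P.ι_ne_zero hw') h2

theorem dcob_mem {w : W} (hw : w ∈ F') (σ : GQb) : dcob w σ ∈ F' :=
  F'.sub_mem (P.stab σ w hw) hw

theorem ι_dcob_mul {w : W} (hw : w ∈ F') (σ : GQb) : ι (dcob w σ) * ι w = σ (ι w) := by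
  rw [← P.ι_mul _ _ (P.dcob_mem hw σ) hw, dcob_apply, sub_add_cancel, P.ι_smul σ w hw]

theorem ι_pow_eq_one {l : ℕ} (hidx : F.relIndex F' = l) {w : W} (hw : w ∈ F') :
    ι w ^ l = 1 := by
  rw [← P.ι_nsmul hw, P.ι_one_iff _ (F'.nsmul_mem hw l)]
  exact pi_nsmul_mem hidx hw

/-- every `l`-th root of unity is `ι (k • w₀)`. -/
theorem exists_nsmul_of_pow_eq_one {l : ℕ} (hl : l.Prime) (hidx : F.relIndex F' = l) {w₀ : W}
    (hw₀ : w₀ ∈ F') (hw₀F : w₀ ∉ F) {ξ : Qb} (hξ : ξ ^ l = 1) : ∃ k : ℕ, ι (k • w₀) = ξ := by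
  haveI : Fact l.Prime := ⟨hl⟩
  haveI : NeZero l := ⟨hl.ne_zero⟩
  have h1 : ι w₀ ^ l = 1 := P.ι_pow_eq_one hidx hw₀
  have h2 : ι w₀ ≠ 1 := fun h => hw₀F ((P.ι_one_iff w₀ hw₀).1 h)
  have h3 : IsPrimitiveRoot (ι w₀) l := by
    have := IsPrimitiveRoot.orderOf (ι w₀)
    rwa [orderOf_eq_prime h1 h2] at this
  obtain ⟨k, -, hk⟩ := h3.eq_pow_of_pow_eq_one hξ
  exact ⟨k, by rw [P.ι_nsmul hw₀, hk]⟩

end MuPiece

namespace DevCtx

variable {X : DevCtx W}

/-- the Kummer cocycle of a Selmer cocycle with values in `F'`. -/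
theorem isKum_of_sel {F F' : AddSubgroup W} {ι : W → Qb} (P : MuPiece F F' ι)
    (hidx : F.relIndex F' = X.l)
    (hflat : ∀ c : GQb → W, IsCoc c → X.Flat c → (∀ σ, c σ ∈ F') →
      ∃ a : Qb, a ∈ X.Al ∧ a⁻¹ ∈ X.Al ∧ a ≠ 0 ∧
        ∀ σ ∈ X.Al.decompositionSubgroup ℚ, ι (c σ) * a = σ a)
    {c : GQb → W} (hc : X.Sel F' c) : IsKum X.p X.l X.Ap X.Al (fun σ => ι (c σ)) where
  pow σ := P.ι_pow_eq_one hidx (hc.mem σ)
  coc σ τ := by
    show ι (c (σ * τ)) = ι (c σ) * σ (ι (c τ))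
    rw [hc.coc σ τ, P.ι_mul _ _ (hc.mem σ) (P.stab σ _ (hc.mem τ)), P.ι_smul σ _ (hc.mem τ)]
  cts := by
    obtain ⟨E, hE, h⟩ := hc.cts
    exact ⟨E, hE, fun σ τ hτ => by show ι (c (σ * τ)) = ι (c σ); rw [h σ τ hτ]⟩
  unram r hr hrS A hA σ hσ := by
    show ι (c σ) = 1
    rw [hc.unr r hr hrS A hA σ hσ, P.ι_zero]
  unram_p σ hσ := by
    show ι (c σ) = 1
    rw [hc.zero_p σ hσ, P.ι_zero]
  unit := hflat c hc.coc hc.flat hc.mem

/-- counting over the fibres of a labelling, after translation by a member of the fibre. -/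
theorem fiber_translate {F F' : AddSubgroup W} {x y : ℕ}
    (hb : ∀ (J' : Type) [Finite J'] (c' : J' → GQb → W), (∀ j, X.Sel F (c' j)) →
      (∀ j j', j ≠ j' → ¬ CohomIn F' (c' j) (c' j')) → Nat.card J' * x ≤ y)
    (J : Type) [Finite J] (c : J → GQb → W) (hc : ∀ j, X.Sel F' (c j))
    (hne : ∀ j j', j ≠ j' → ¬ CohomIn F' (c j) (c j'))
    (lab : J → Fin X.l) (hlab : ∀ j j', lab j = lab j' → ∀ σ, c j σ - c j' σ ∈ F) :
    Nat.card J * x ≤ X.l * y := by
  have h := fiber_card_bound lab x y (fun t => ?_)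
  · rwa [Fintype.card_fin] at h
  · by_cases hne0 : Nonempty {j : J // lab j = t}
    · obtain ⟨⟨j₀, hj₀⟩⟩ := hne0
      refine hb {j : J // lab j = t} (fun j => c j.1 - c j₀) (fun j => ?_) (fun j j' hjj h => ?_)
      · exact ((hc j.1).sub (hc j₀)).of_mem (fun σ => hlab j.1 j₀ (j.2.trans hj₀.symm) σ)
      · obtain ⟨w, hw, h1⟩ := h
        refine hne j.1 j'.1 (fun h2 => hjj (Subtype.ext h2)) ⟨w, hw, fun σ => ?_⟩
        rw [← h1 σ]
        simp only [Pi.sub_apply]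
        abel
    · haveI : IsEmpty {j : J // lab j = t} := not_nonempty_iff.1 hne0
      rw [Nat.card_of_isEmpty, zero_mul]
      exact Nat.zero_le _

/-- **the `mu` step**. -/
theorem bound_step_mu [Finite W] (hMu : PcsMu X.p X.l X.Ap X.Al) {F F' : AddSubgroup W}
    {ι : W → Qb} (P : MuPiece F F' ι) (hidx : F.relIndex F' = X.l)
    (hflat : ∀ c : GQb → W, IsCoc c → X.Flat c → (∀ σ, c σ ∈ F') →
      ∃ a : Qb, a ∈ X.Al ∧ a⁻¹ ∈ X.Al ∧ a ≠ 0 ∧
        ∀ σ ∈ X.Al.decompositionSubgroup ℚ, ι (c σ) * a = σ a)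
    {a : ℕ} (hB : X.Bound F a) : X.Bound F' a := by
  intro J _ c hc hne
  have hle := P.le
  have hkum : ∀ j, IsKum X.p X.l X.Ap X.Al (fun σ => ι (c j σ)) := fun j =>
    isKum_of_sel P hidx hflat (hc j)
  obtain ⟨lab0, hlab0⟩ := kum_exists_label X.hl hMu
  have hlab : ∀ j j', lab0 (fun σ => ι (c j σ)) = lab0 (fun σ => ι (c j' σ)) →
      ∀ σ, c j σ - c j' σ ∈ F := fun j j' h σ =>
    P.sub_mem_of_ι_eq ((hc j).mem σ) ((hc j').mem σ)
      (congrFun (hlab0 _ _ (hkum j) (hkum j') h) σ)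
  have hN : Nat.card ↥F' = X.l * Nat.card ↥F := pi_card X.hl hle hidx
  by_cases hE : ∃ w₀, w₀ ∈ F' ∧ w₀ ∈ X.WI ∧ w₀ ∉ F
  · obtain ⟨w₀, hw₀, hw₀I, hw₀F⟩ := hE
    have hA : Nat.card ↥(F' ⊓ X.WI) = X.l * Nat.card ↥(F ⊓ X.WI) :=
      pi_card_inf X.hl hle hidx X.WI hw₀ hw₀I hw₀F
    rw [hA, hN]
    rcases X.hl.eq_two_or_odd' with h2 | hodd
    · -- `l' = 2`: the root of unity `ι w₀ = -1` is rational
      have hsq : ι w₀ ^ 2 = 1 := by
        have := P.ι_pow_eq_one hidx hw₀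
        rwa [h2] at this
      have htriv : ∀ σ : GQb, σ • w₀ - w₀ ∈ F := fun σ =>
        P.sub_mem_of_ι_eq (P.stab σ w₀ hw₀) hw₀
          (by rw [P.ι_smul σ w₀ hw₀, kum_fixed_of_sq hsq σ])
      have hb : ∀ (J' : Type) [Finite J'] (c' : J' → GQb → W), (∀ j, X.Sel F (c' j)) →
          (∀ j j', j ≠ j' → ¬ CohomIn F' (c' j) (c' j')) →
          Nat.card J' * (X.l * X.l ^ a * Nat.card ↥(F ⊓ X.WI)) ≤
            Nat.card ↥(F' ⊓ X.WG) * Nat.card ↥F := by
        intro J' _ c' hc' hne'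
        have := ext_l hle hidx hB hw₀ hw₀I hw₀F htriv J' c' hc' hne'
        calc Nat.card J' * (X.l * X.l ^ a * Nat.card ↥(F ⊓ X.WI))
            = Nat.card J' * X.l * X.l ^ a * Nat.card ↥(F ⊓ X.WI) := by ring
          _ ≤ _ := this
      have hfb := fiber_translate hb J c hc hne (fun j => lab0 (fun σ => ι (c j σ))) hlab
      calc Nat.card J * X.l ^ a * (X.l * Nat.card ↥(F ⊓ X.WI))
          = Nat.card J * (X.l * X.l ^ a * Nat.card ↥(F ⊓ X.WI)) := by ring
        _ ≤ X.l * (Nat.card ↥(F' ⊓ X.WG) * Nat.card ↥F) := hfb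
        _ = Nat.card ↥(F' ⊓ X.WG) * (X.l * Nat.card ↥F) := by ring
    · -- `l'` odd: every Kummer cocycle is the coboundary of some `ι (k • w₀)`
      have hex : ∀ j, ∃ k : ℕ, ∀ σ : GQb, ι (c j σ) * ι (k • w₀) = σ (ι (k • w₀)) := by
        intro j
        obtain ⟨ξ, hξ, hκ⟩ := kum_exists_root_of_odd hodd hMu (hkum j)
        obtain ⟨k, hk⟩ := P.exists_nsmul_of_pow_eq_one X.hl hidx hw₀ hw₀F hξ
        exact ⟨k, fun σ => by rw [hk]; exact hκ σ⟩
      choose k hk using hex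
      have hkF' : ∀ j, k j • w₀ ∈ F' := fun j => F'.nsmul_mem hw₀ _
      have hkI : ∀ j, k j • w₀ ∈ X.WI := fun j => X.WI.nsmul_mem hw₀I _
      have hval : ∀ j σ, c j σ - dcob (k j • w₀) σ ∈ F := by
        intro j σ
        refine P.sub_mem_of_ι_eq ((hc j).mem σ) (P.dcob_mem (hkF' j) σ) ?_
        apply mul_right_cancel₀ (P.ι_ne_zero (hkF' j))
        rw [hk j σ, P.ι_dcob_mul (hkF' j) σ]
      have hc' : ∀ j, X.Sel F (c j - dcob (k j • w₀)) := fun j =>
        ((hc j).sub (sel_dcob (hkI j) (P.dcob_mem (hkF' j)))).of_mem (hval j)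
      have hne' : ∀ j j', j ≠ j' →
          ¬ CohomIn F' (c j - dcob (k j • w₀)) (c j' - dcob (k j' • w₀)) := by
        rintro j j' hjj ⟨w, hw, h⟩
        refine hne j j' hjj ⟨w + (k j • w₀ - k j' • w₀),
          F'.add_mem hw (F'.sub_mem (hkF' j) (hkF' j')), fun σ => ?_⟩
        have h1 := h σ
        simp only [Pi.sub_apply, dcob_apply] at h1
        have h2 : c j σ - c j' σ = (σ • w - w) + (σ • (k j • w₀) - k j • w₀)
            - (σ • (k j' • w₀) - k j' • w₀) := by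
          rw [← h1]; abel
        rw [h2, smul_add, smul_sub]
        abel
      have h1 := ext_one hle hB J (fun j => c j - dcob (k j • w₀)) hc' hne'
      calc Nat.card J * X.l ^ a * (X.l * Nat.card ↥(F ⊓ X.WI))
          = X.l * (Nat.card J * X.l ^ a * Nat.card ↥(F ⊓ X.WI)) := by ring
        _ ≤ X.l * (Nat.card ↥(F' ⊓ X.WG) * Nat.card ↥F) := Nat.mul_le_mul_left _ h1
        _ = Nat.card ↥(F' ⊓ X.WG) * (X.l * Nat.card ↥F) := by ring
  · have hEq : F' ⊓ X.WI = F ⊓ X.WI := by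
      apply le_antisymm
      · intro w hw
        refine ⟨?_, hw.2⟩
        by_contra hwF
        exact hE ⟨w, hw.1, hw.2, hwF⟩
      · exact inf_le_inf_right _ hle
    rw [hEq, hN]
    have hb : ∀ (J' : Type) [Finite J'] (c' : J' → GQb → W), (∀ j, X.Sel F (c' j)) →
        (∀ j j', j ≠ j' → ¬ CohomIn F' (c' j) (c' j')) →
        Nat.card J' * (X.l ^ a * Nat.card ↥(F ⊓ X.WI)) ≤
          Nat.card ↥(F' ⊓ X.WG) * Nat.card ↥F := by
      intro J' _ c' hc' hne'
      have := ext_one hle hB J' c' hc' hne'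
      calc Nat.card J' * (X.l ^ a * Nat.card ↥(F ⊓ X.WI))
          = Nat.card J' * X.l ^ a * Nat.card ↥(F ⊓ X.WI) := by ring
        _ ≤ _ := this
    have hfb := fiber_translate hb J c hc hne (fun j => lab0 (fun σ => ι (c j σ))) hlab
    calc Nat.card J * X.l ^ a * Nat.card ↥(F ⊓ X.WI)
        = Nat.card J * (X.l ^ a * Nat.card ↥(F ⊓ X.WI)) := by ring
      _ ≤ X.l * (Nat.card ↥(F' ⊓ X.WG) * Nat.card ↥F) := hfb
      _ = Nat.card ↥(F' ⊓ X.WG) * (X.l * Nat.card ↥F) := by ring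

end DevCtx

end Fermat.Agent.EDesc
end
end MergeWrap_E_Desc_Dev_StepMu

section MergeWrap_E_Desc_Dev_Main -- from E/Desc/Dev/Main.lean

/-!
# E' / Desc / Dev / Main : the inequality `h¹ - h⁰ ≤ δ - α` (seat DESC-DEV, helper90)

`devStatement_of_pcs : (∀ …, PcsEt p l' Ap Al) → (∀ …, PcsMu p l' Ap Al) → DevStatement`.

The two hypotheses are the class-field-theory-of-`ℚ` facts of seat DESC-PCS
(`Dev/Iface.lean`).  The proof is the dévissage along the typed chain:
`DevCtx.bound_bot`, `DevCtx.bound_step_et`, `DevCtx.bound_step_mu`.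
-/

set_option autoImplicit false
set_option linter.unusedSectionVars false
set_option linter.style.haveILetI false

noncomputable section

namespace Fermat.Agent.EDesc

local notation "Qb" => AlgebraicClosure ℚ
local notation "GQb" => (AlgebraicClosure ℚ ≃ₐ[ℚ] AlgebraicClosure ℚ)

section

variable {W : Type*} [AddCommGroup W] [DistribMulAction GQb W]

/-- the number of pieces of type `et` among the first `i`. -/
def TypedChain.alphaUpTo {l' : ℕ} (C : TypedChain W l') (i : ℕ) : ℕ :=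
  open Classical in ((Finset.range i).filter C.et).card

theorem TypedChain.alphaUpTo_zero {l' : ℕ} (C : TypedChain W l') : C.alphaUpTo 0 = 0 := by
  simp [TypedChain.alphaUpTo]

theorem TypedChain.alphaUpTo_succ_of_et {l' : ℕ} (C : TypedChain W l') {i : ℕ}
    (h : C.et i) : C.alphaUpTo (i + 1) = C.alphaUpTo i + 1 := by
  classical
  unfold TypedChain.alphaUpTo
  rw [Finset.range_add_one, Finset.filter_insert, if_pos h,
    Finset.card_insert_of_notMem (by simp)]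

theorem TypedChain.alphaUpTo_succ_of_not_et {l' : ℕ} (C : TypedChain W l') {i : ℕ}
    (h : ¬ C.et i) : C.alphaUpTo (i + 1) = C.alphaUpTo i := by
  classical
  unfold TypedChain.alphaUpTo
  rw [Finset.range_add_one, Finset.filter_insert, if_neg h]

theorem TypedChain.alphaUpTo_L {l' : ℕ} (C : TypedChain W l') : C.alphaUpTo C.L = C.alpha := rfl

/-- the ambient data of the dévissage attached to the data of `DevStatement`. -/
def devCtxOf (p l' : ℕ) (hl : l'.Prime) (hsm : SmoothMod W) (hun : UnramMod W {p, l'})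
    (C : TypedChain W l') (Ap Al : ValuationSubring Qb) (Flat : (GQb → W) → Prop)
    (hFlat : FlatCond C Al Flat) : DevCtx W where
  p := p
  l := l'
  hl := hl
  Ap := Ap
  Al := Al
  Flat := Flat
  smooth := hsm
  unram := hun
  flat_add := hFlat.add
  flat_neg := hFlat.neg
  flat_cob := hFlat.cob

/-- the bound along the chain. -/
theorem bound_chain [Finite W] (p l' : ℕ) (hl : l'.Prime) (hsm : SmoothMod W)
    (hun : UnramMod W {p, l'}) (C : TypedChain W l') (Ap Al : ValuationSubring Qb)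
    (Flat : (GQb → W) → Prop) (hFlat : FlatCond C Al Flat)
    (hEt : PcsEt p l' Ap Al) (hMu : PcsMu p l' Ap Al) (i : ℕ) (hi : i ≤ C.L) :
    (devCtxOf p l' hl hsm hun C Ap Al Flat hFlat).Bound (C.F i) (C.alphaUpTo i) := by
  induction i with
  | zero =>
    rw [C.F_zero, C.alphaUpTo_zero]
    exact DevCtx.bound_bot _
  | succ i ih =>
    have hiL : i < C.L := hi
    have ih' := ih hiL.le
    by_cases het : C.et i
    · rw [C.alphaUpTo_succ_of_et het]
      exact DevCtx.bound_step_et (X := devCtxOf p l' hl hsm hun C Ap Al Flat hFlat) hEt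
        (C.mono i) (C.index i hiL) (C.et_triv i hiL het) (hFlat.et_unram i hiL het) ih'
    · rw [C.alphaUpTo_succ_of_not_et het]
      have P : MuPiece (C.F i) (C.F (i + 1)) (C.ι i) :=
        ⟨C.mono i, C.stable (i + 1), C.ι_mul i hiL het, C.ι_one_iff i hiL het,
          C.ι_smul i hiL het⟩
      exact DevCtx.bound_step_mu (X := devCtxOf p l' hl hsm hun C Ap Al Flat hFlat) hMu P
        (C.index i hiL) (hFlat.mu_unit i hiL het) ih'

end

/-- **DESC-DEV**: the inequality `h¹ - h⁰ ≤ δ - α`, from the two PCS facts. -/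
theorem devStatement_of_pcs
    (hEt : ∀ (p l' : ℕ) (Ap Al : ValuationSubring Qb), p.Prime → l'.Prime → p ≠ l' →
      Ap.LiesOverPrime p → Al.LiesOverPrime l' → PcsEt p l' Ap Al)
    (hMu : ∀ (p l' : ℕ) (Ap Al : ValuationSubring Qb), p.Prime → l'.Prime → p ≠ l' →
      Ap.LiesOverPrime p → Al.LiesOverPrime l' → PcsMu p l' Ap Al) :
    DevStatement := by
  intro p l' hp hl hpl W _ _ _ hsm hun _ C Ap Al hAp hAl Flat hFlat n c hcoc hcts hunr hcob
    hflat hne
  have hB := bound_chain p l' hl hsm hun C Ap Al Flat hFlat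
    (hEt p l' Ap Al hp hl hpl hAp hAl) (hMu p l' Ap Al hp hl hpl hAp hAl) C.L le_rfl
  rw [C.F_top, C.alphaUpTo_L] at hB
  choose b hb using hcob
  have hsel : ∀ i, (devCtxOf p l' hl hsm hun C Ap Al Flat hFlat).Sel ⊤
      (c i - dcob (b i)) := fun i =>
    { coc := by
        rw [sub_eq_add_neg]
        exact (hcoc i).add (dcob_isCoc (b i)).neg
      cts := by
        rw [sub_eq_add_neg]
        exact (hcts i).add (dcob_isCtsCoc hsm (b i)).neg
      unr := by
        rw [sub_eq_add_neg]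
        exact (hunr i).add (dcob_unramCoc hun (b i)).neg
      zero_p := fun σ hσ => by
        simp only [Pi.sub_apply, dcob_apply]
        rw [hb i σ hσ, sub_self]
      flat := by
        rw [sub_eq_add_neg]
        exact hFlat.add _ _ (hflat i) (hFlat.neg _ (hFlat.cob (b i)))
      mem := fun σ => AddSubgroup.mem_top _ }
  have hne' : ∀ i j, i ≠ j → ¬ CohomIn (⊤ : AddSubgroup W) (c i - dcob (b i))
      (c j - dcob (b j)) := by
    rintro i j hij ⟨w, -, h⟩
    refine hne i j hij ⟨w + (b i - b j), fun σ => ?_⟩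
    have h1 := h σ
    simp only [Pi.sub_apply, dcob_apply] at h1
    have h2 : c i σ - c j σ = (σ • w - w) + (σ • b i - b i) - (σ • b j - b j) := by
      rw [← h1]; abel
    rw [h2, smul_add, smul_sub]
    abel
  have h := hB (Fin n) (fun i => c i - dcob (b i)) hsel hne'
  rw [Nat.card_fin, top_inf_eq, top_inf_eq, AddSubgroup.card_top] at h
  exact h

end Fermat.Agent.EDesc
end
end MergeWrap_E_Desc_Dev_Main

section MergeWrap_E_Desc_Dev_Final -- from E/Desc/Dev/Final.lean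

/-!
# E' / Desc / Dev / Final : `DevStatement`, unconditionally (seat DESC-DEV, helper90)

The dévissage (`devStatement_of_pcs`, `Dev/Main.lean`) with the two PCS facts of helper39
(`pcsEt_holds`, `pcsMu_holds`, `E/Desc/PCSMain.lean`) plugged in.
-/

set_option autoImplicit false

namespace Fermat.Agent.EDesc

/-- **DESC-DEV: the inequality `h¹ - h⁰ ≤ δ - α`** (Mazur, Prop. I.1.7, Galois form). -/
theorem devStatement : DevStatement :=
  devStatement_of_pcs
    (fun p l' Ap Al _ _ _ hAp hAl => pcsEt_holds p l' Ap Al hAp hAl)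
    (fun p l' Ap Al hp hl _ hAp hAl => pcsMu_holds p l' hp hl Ap Al hAp hAl)

end Fermat.Agent.EDesc
end MergeWrap_E_Desc_Dev_Final
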